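import Mathlib
import Fermat.Prelude.Def_DualSelmer_ExtConditions

/-!
# S55 / Program C, package C9a, sub-leaf (ISO-ND) (helper21): the extension attached to a
`1`-cocycle and its twisted dual sequence

For a representation `A` of `G` over a field `k` and a `1`-cocycle `c : G → A`:

* `extRep A c hc` : the extension `E_c = A × k` of the trivial representation `k` by `A`, with
  `g (a, t) = (g a + t c(g), t)`;
* `dualJ`, `dualPi` : the twisted dual sequence `0 → k(χ) → E_c' → A' → 0`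
  (`M' = M.dualTwist χ`), `r ↦ r • pr₂`, `f ↦ f ∘ inl`;
* `dualSC`, `dualSC_shortExact` : it is a short exact sequence of representations;
* `dualJ_comp_eq_zero` : if `A` is finite dimensional and `c` is not a coboundary, every morphism
  `E_c' ⟶ k(χ)` kills `k(χ)`.
-/

set_option autoImplicit false

open CategoryTheory groupCohomology

noncomputable section

namespace Fermat.Agent.S55.H21

variable {G : Type} [Group G] {k : Type} [Field k]

/-- The action on `E_c = A × k`: `g (a, t) = (g a + t c(g), t)`. -/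
def extMap (A : Rep.{0} k G) (c : G → A) (g : G) : (A × k) →ₗ[k] (A × k) :=
  LinearMap.prod
    ((A.ρ g) ∘ₗ LinearMap.fst k A k + (LinearMap.toSpanSingleton k A (c g)) ∘ₗ LinearMap.snd k A k)
    (LinearMap.snd k A k)

theorem extMap_apply (A : Rep.{0} k G) (c : G → A) (g : G) (x : A × k) :
    extMap A c g x = (A.ρ g x.1 + x.2 • c g, x.2) := rfl

/-- The representation `E_c`. -/
def extRho (A : Rep.{0} k G) (c : G → A) (hc : c ∈ cocycles₁ A) : Representation k G (A × k) where
  toFun g := extMap A c g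
  map_one' := by
    refine LinearMap.ext fun x => ?_
    have e : c 1 = 0 := cocycles₁_map_one ⟨c, hc⟩
    rw [extMap_apply, e, smul_zero, add_zero, map_one]
    rfl
  map_mul' g h := by
    refine LinearMap.ext fun x => ?_
    rw [Module.End.mul_apply, extMap_apply, extMap_apply, extMap_apply]
    have e : c (g * h) = A.ρ g (c h) + c g := (mem_cocycles₁_iff c).1 hc g h
    refine Prod.ext ?_ rfl
    show A.ρ (g * h) x.1 + x.2 • c (g * h) = A.ρ g (A.ρ h x.1 + x.2 • c h) + x.2 • c g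
    rw [e, map_mul, Module.End.mul_apply, map_add, map_smul, smul_add]
    abel

/-- The extension `E_c` of `k` by `A` attached to the `1`-cocycle `c`. -/
abbrev extRep (A : Rep.{0} k G) (c : G → A) (hc : c ∈ cocycles₁ A) : Rep.{0} k G :=
  Rep.of (extRho A c hc)

theorem extRep_ρ_apply (A : Rep.{0} k G) (c : G → A) (hc : c ∈ cocycles₁ A) (g : G) (x : A × k) :
    (extRep A c hc).ρ g x = (A.ρ g x.1 + x.2 • c g, x.2) := rfl

/-- `k(χ) ⟶ E_c'`, `r ↦ r • pr₂`. -/
def dualJ (A : Rep.{0} k G) (c : G → A) (hc : c ∈ cocycles₁ A) (χ : G →* kˣ) :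
    ofChar χ ⟶ (extRep A c hc).dualTwist χ :=
  Rep.ofHom (LinearMap.intertwiningMap_of_isIntertwiningMap _ _
    (LinearMap.toSpanSingleton k (Module.Dual k (A × k)) (LinearMap.snd k A k)) (by
      intro g r
      refine LinearMap.ext fun (x : A × k) => ?_
      show ((χ g : k) * r) * x.2 = (χ g : k) * (r * (extMap A c g⁻¹ x).2)
      rw [extMap_apply, mul_assoc]))

theorem dualJ_apply (A : Rep.{0} k G) (c : G → A) (hc : c ∈ cocycles₁ A) (χ : G →* kˣ) (r : k)
    (x : A × k) : ((dualJ A c hc χ).hom r : Module.Dual k (A × k)) x = r * x.2 := rfl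

/-- `E_c' ⟶ A'`, `f ↦ f ∘ inl`. -/
def dualPi (A : Rep.{0} k G) (c : G → A) (hc : c ∈ cocycles₁ A) (χ : G →* kˣ) :
    (extRep A c hc).dualTwist χ ⟶ A.dualTwist χ :=
  Rep.ofHom (LinearMap.intertwiningMap_of_isIntertwiningMap _ _
    ((LinearMap.inl k A k).dualMap) (by
      intro g (f : Module.Dual k (A × k))
      refine LinearMap.ext fun (a : A) => ?_
      show (χ g : k) * f (extMap A c g⁻¹ (a, 0)) = (χ g : k) * f (A.ρ g⁻¹ a, 0)
      rw [extMap_apply, zero_smul, add_zero]))

theorem dualPi_apply (A : Rep.{0} k G) (c : G → A) (hc : c ∈ cocycles₁ A) (χ : G →* kˣ)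
    (f : Module.Dual k (A × k)) (a : A) :
    ((dualPi A c hc χ).hom f : Module.Dual k A) a = f (a, 0) := rfl

/-- Short exactness in `Rep` from elementwise facts. -/
theorem shortExact_of_elts (X : ShortComplex (Rep.{0} k G)) (h1 : Function.Injective X.f.hom)
    (h2 : ∀ y : X.X₂, X.g.hom y = 0 → ∃ x : X.X₁, X.f.hom x = y)
    (h3 : Function.Surjective X.g.hom) : X.ShortExact := by
  refine
    { exact := ?_
      mono_f := (Rep.mono_iff_injective X.f).2 h1
      epi_g := (Rep.epi_iff_surjective X.g).2 h3 }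
  rw [← ShortComplex.exact_map_iff_of_faithful X (forget₂ (Rep.{0} k G) (ModuleCat.{0} k)),
    ShortComplex.moduleCat_exact_iff]
  intro y hy
  exact h2 y hy

theorem dualJ_comp_dualPi (A : Rep.{0} k G) (c : G → A) (hc : c ∈ cocycles₁ A) (χ : G →* kˣ) :
    dualJ A c hc χ ≫ dualPi A c hc χ = 0 := by
  refine Rep.hom_ext (Representation.IntertwiningMap.ext (LinearMap.ext fun (r : k) => ?_))
  refine LinearMap.ext fun (a : A) => ?_
  show r * (0 : k) = 0
  rw [mul_zero]

/-- The twisted dual sequence `0 → k(χ) → E_c' → A' → 0`. -/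
def dualSC (A : Rep.{0} k G) (c : G → A) (hc : c ∈ cocycles₁ A) (χ : G →* kˣ) :
    ShortComplex (Rep.{0} k G) :=
  ShortComplex.mk (dualJ A c hc χ) (dualPi A c hc χ) (dualJ_comp_dualPi A c hc χ)

theorem dualSC_shortExact (A : Rep.{0} k G) (c : G → A) (hc : c ∈ cocycles₁ A) (χ : G →* kˣ) :
    (dualSC A c hc χ).ShortExact := by
  refine shortExact_of_elts _ ?_ ?_ ?_
  · intro (r : k) (r' : k) h
    have h1 := LinearMap.congr_fun h ((0 : A), (1 : k))
    have h2 : r * 1 = r' * 1 := h1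
    rwa [mul_one, mul_one] at h2
  · intro (f : Module.Dual k (A × k)) hf
    refine ⟨f (0, 1), ?_⟩
    refine LinearMap.ext fun (x : A × k) => ?_
    show f (0, 1) * x.2 = f x
    have h1 : f (x.1, 0) = 0 := LinearMap.congr_fun hf x.1
    have h2 : x = (x.1, (0 : k)) + x.2 • ((0 : A), (1 : k)) := by
      refine Prod.ext ?_ ?_
      · simp
      · simp
    conv_rhs => rw [h2, map_add, map_smul, h1, zero_add, smul_eq_mul]
    rw [mul_comm]
  · intro (w : Module.Dual k A)
    refine ⟨w ∘ₗ LinearMap.fst k A k, ?_⟩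
    refine LinearMap.ext fun (a : A) => ?_
    rfl

/-- If `A` is finite dimensional and `c` is not a coboundary, every morphism `E_c' ⟶ k(χ)` kills
the image of `k(χ)`. -/
theorem dualJ_comp_eq_zero (A : Rep.{0} k G) [Module.Finite k A] (c : G → A)
    (hc : c ∈ cocycles₁ A) (χ : G →* kˣ) (hnc : ¬ ∃ a : A, ∀ g : G, c g = A.ρ g a - a)
    (f : (extRep A c hc).dualTwist χ ⟶ ofChar χ) : dualJ A c hc χ ≫ f = 0 := by
  -- `f` is evaluation at a vector `e₀` of `E_c`
  let φ : Module.Dual k (Module.Dual k (A × k)) := f.hom.toLinearMap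
  obtain ⟨e₀, he₀⟩ : ∃ e₀ : A × k, ∀ ψ : Module.Dual k (A × k), φ ψ = ψ e₀ := by
    refine ⟨(Module.evalEquiv k (A × k)).symm φ, fun ψ => ?_⟩
    have h := Module.apply_evalEquiv_symm_apply (R := k) (M := A × k) ψ φ
    exact h.symm
  -- `e₀` is `G`-invariant
  have hinv : ∀ g : G, extMap A c g e₀ = e₀ := by
    intro g
    by_contra hne
    obtain ⟨ψ, hψ⟩ : ∃ ψ : Module.Dual k (A × k), ψ (extMap A c g e₀ - e₀) ≠ 0 := by
      by_contra hcon
      have hcon' : ∀ ψ : Module.Dual k (A × k), ψ (extMap A c g e₀ - e₀) = 0 := fun ψ =>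
        not_not.mp fun h => hcon ⟨ψ, h⟩
      have := (Module.forall_dual_apply_eq_zero_iff k (extMap A c g e₀ - e₀)).1 hcon'
      exact hne (sub_eq_zero.mp this)
    have h1 := Rep.hom_comm_apply f g⁻¹ ψ
    have h2 : f.hom (((extRep A c hc).dualTwist χ).ρ g⁻¹ ψ) =
        (χ g⁻¹ : k) * ψ (extMap A c g e₀) := by
      have e1 : ((extRep A c hc).dualTwist χ).ρ g⁻¹ ψ =
          (χ g⁻¹ : k) • (ψ ∘ₗ (extRep A c hc).ρ g⁻¹⁻¹) :=
        Rep.dualTwist_ρ_apply (extRep A c hc) χ g⁻¹ ψ
      rw [e1, inv_inv]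
      show φ ((χ g⁻¹ : k) • (ψ ∘ₗ extMap A c g)) = _
      rw [map_smul, he₀]
      rfl
    have h3 : (ofChar χ).ρ g⁻¹ (f.hom ψ) = (χ g⁻¹ : k) * ψ e₀ := by
      show (χ g⁻¹ : k) • φ ψ = _
      rw [he₀, smul_eq_mul]
    rw [h2, h3] at h1
    have h4 : ψ (extMap A c g e₀) = ψ e₀ :=
      mul_left_cancel₀ (Units.ne_zero (χ g⁻¹)) h1
    apply hψ
    rw [map_sub, h4, sub_self]
  -- hence its `k`-component vanishes
  have ht : e₀.2 = 0 := by
    by_contra ht
    apply hnc
    refine ⟨-(e₀.2⁻¹ • e₀.1), fun g => ?_⟩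
    have h1 := congrArg Prod.fst (hinv g)
    rw [extMap_apply] at h1
    have h2 : e₀.2 • c g = e₀.1 - A.ρ g e₀.1 := by
      rw [eq_sub_iff_add_eq, add_comm]
      exact h1
    have h3 : c g = e₀.2⁻¹ • (e₀.1 - A.ρ g e₀.1) := by
      rw [← h2, smul_smul, inv_mul_cancel₀ ht, one_smul]
    rw [h3, map_neg, map_smul, smul_sub]
    abel
  refine Rep.hom_ext (Representation.IntertwiningMap.ext (LinearMap.ext fun (r : k) => ?_))
  show φ ((dualJ A c hc χ).hom r) = 0
  rw [he₀, dualJ_apply, ht, mul_zero]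

end Fermat.Agent.S55.H21

end
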