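import Fermat.Agent.S55.H87.IsoLocalSpec
import Fermat.Agent.S55.H41.LcElt
import Fermat.Agent.S55.H68.Bridge1Core
import Fermat.Agent.S55.H21.IsoNDExt

/-!
# S55 / Program C, package C9a, sub-leaf (ISO-ND) (helper21)

`localH1NondegLeaf : H87.LocalH1NondegLeaf`: local duality in bidegree `(1,1)` is
left-nondegenerate for every smooth finite module, formally from the local injectivity (L) of C4
and `inv ≠ 0`.

Proof (the one of `H87/IsoLocalSpec.lean`): `u = [c] ≠ 0` in `H¹(A)`; `E_c = A × k` with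
`g (a, t) = (g a + t c(g), t)`; twisted dual sequence `0 → k(χ) → E_c' → A' → 0`
(`IsoNDExt.lean`).  Every morphism `E_c' ⟶ k(χ)` kills `k(χ)` (`dualJ_comp_eq_zero`), so by (L)
the map `H²(k(χ)) → H²(E_c')` is zero, so the connecting map `δ : H¹(A') → H²(k(χ))` is onto; and
`δ [w] = -[c ∪ w]` (`hlcDelta_eq_neg_cupTwist`).
-/

set_option autoImplicit false

open CategoryTheory groupCohomology

noncomputable section

namespace Fermat.Agent.S55.H21

open Fermat.Agent.S55.H49 Fermat.Agent.S55.H26 Fermat.Agent.S55.H62 Fermat.Agent.S55.H87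
  Fermat.Agent.S55.H68 Fermat.Agent.S55.H41

variable {G : Type} [Group G] {k : Type} [Field k]

/-! ### Smooth modules -/

/-- Constant `0`-cochains of a smooth module are level-constant. -/
theorem isLC_const (D : LevelDatum G) {A : Rep.{0} k G} (hA : D.Smooth A) (a : A) :
    IsLC D A (fun _ : Fin 0 → G => a) := by
  obtain ⟨F, hF, hN, h⟩ := hA
  exact ⟨F, hF, hN, fun _ _ _ => rfl, fun _ s hs => h s hs a⟩

/-- Composing a level-constant cochain with any map into a smooth module gives a level-constant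
cochain. -/
theorem isLC_comp (D : LevelDatum G) {A B : Rep.{0} k G} (hB : D.Smooth B) (ψ : A → B) {n : ℕ}
    {f : (Fin n → G) → A} (hf : IsLC D A f) : IsLC D B (fun g => ψ (f g)) := by
  obtain ⟨F, hF, hN, h1, -⟩ := hf
  obtain ⟨F₀, hF₀, hN₀, h0⟩ := hB
  refine ⟨F ⊔ F₀, D.sup hF hF₀, normal_fixingSubgroup_sup hN hN₀, fun g s hs => ?_,
    fun g s hs => ?_⟩
  · have : f (g * s) = f g := h1 g s fun i => D.sub_antitone le_sup_left (hs i)
    show ψ (f (g * s)) = ψ (f g)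
    rw [this]
  · exact h0 s (D.sub_antitone le_sup_right hs) _

/-- A smooth character is trivial on the subgroup of a normal level. -/
theorem exists_level_char (D : LevelDatum G) (χ : G →* kˣ) (hμ : D.Smooth (mu χ)) :
    ∃ F : IntermediateField ℚ (AlgebraicClosure ℚ), D.Lev F ∧ (F.fixingSubgroup).Normal ∧
      ∀ s ∈ D.sub F, χ s = 1 := by
  obtain ⟨F, hF, hN, h⟩ := hμ
  refine ⟨F, hF, hN, fun s hs => ?_⟩
  have h1 : (χ s : k) * 1 = 1 := h s hs (1 : k)
  rw [mul_one] at h1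
  exact Units.ext h1

/-- The twisted dual of the extension `E_c` of a level-constant cocycle with values in a smooth
module is smooth. -/
theorem smooth_dualTwist_extRep (D : LevelDatum G) (χ : G →* kˣ) (hμ : D.Smooth (mu χ))
    {A : Rep.{0} k G} (hA : D.Smooth A) (c : G → A) (hc : c ∈ cocycles₁ A)
    (hlc : IsLC D A (toCochain₁ A c)) : D.Smooth ((extRep A c hc).dualTwist χ) := by
  obtain ⟨F₁, hF₁, hN₁, h1⟩ := hA
  obtain ⟨F₂, hF₂, hN₂, h2⟩ := exists_level_char D χ hμ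
  obtain ⟨F₃, hF₃, hN₃, h3, -⟩ := hlc
  refine ⟨F₁ ⊔ F₂ ⊔ F₃, D.sup (D.sup hF₁ hF₂) hF₃,
    normal_fixingSubgroup_sup (normal_fixingSubgroup_sup hN₁ hN₂) hN₃, fun s hs f => ?_⟩
  have hs' : s ∈ D.sub (F₁ ⊔ F₂ ⊔ F₃) := hs
  have hs1 : s⁻¹ ∈ D.sub F₁ :=
    D.sub_antitone (le_sup_left.trans le_sup_left) ((D.sub _).inv_mem hs')
  have hs2 : s ∈ D.sub F₂ := D.sub_antitone (le_sup_right.trans le_sup_left) hs'
  have hs3 : s⁻¹ ∈ D.sub F₃ := D.sub_antitone le_sup_right ((D.sub _).inv_mem hs')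
  have hc1 : c 1 = 0 := cocycles₁_map_one ⟨c, hc⟩
  have hcs : c s⁻¹ = 0 := by
    have := h3 (fun _ => 1) (fun _ => s⁻¹) fun _ => hs3
    have e : toCochain₁ A c ((fun _ => 1) * fun _ => s⁻¹) = c s⁻¹ := by
      show c (1 * s⁻¹) = c s⁻¹
      rw [one_mul]
    rw [e] at this
    rw [this]
    exact hc1
  rw [Rep.dualTwist_ρ_apply (extRep A c hc) χ s f, h2 s hs2, Units.val_one, one_smul]
  refine LinearMap.ext fun (x : A × k) => ?_
  show f (extMap A c s⁻¹ x) = f x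
  rw [extMap_apply, hcs, smul_zero, add_zero, h1 s⁻¹ hs1 x.1]

/-! ### Classes of cocycles: the two interfaces agree -/

/-- `H62.Hmk` and `H49.cls` agree. -/
theorem Hmk_eq_cls (K : CochainComplex (ModuleCat.{0} k) ℕ) (n : ℕ) (z : cyc K n) :
    Hmk K n z.1 (mem_cyc.mp z.2) = (cls K n).hom z :=
  Hmk_eq_of K n z.1 (mem_cyc.mp z.2) ((cycToCycles K n).hom z) (iCycles_cycToCycles K n z)

/-- The cup product of two level-constant `1`-cocycles, as a `2`-cocycle. -/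
def cupCyc (D : LevelDatum G) (A : Rep.{0} k G) (χ : G →* kˣ) (z : cyc (lcComplex D A) 1)
    (w : cyc (lcComplex D (A.dualTwist χ)) 1) : cyc (lcComplex D (mu χ)) 2 :=
  ⟨(lcPairing D (evTwist A χ) (evTwist_equivariant A χ)).P 1 1 2 z.1 w.1,
    mem_cyc.mpr ((lcPairing D (evTwist A χ) (evTwist_equivariant A χ)).d_P_of_cocycle rfl
      (mem_cyc.mp z.2) (mem_cyc.mp w.2))⟩

theorem cupTwist_cls (D : LevelDatum G) (A : Rep.{0} k G) (χ : G →* kˣ)
    (z : cyc (lcComplex D A) 1) (w : cyc (lcComplex D (A.dualTwist χ)) 1) :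
    cupTwist D A χ ((cls (lcComplex D A) 1).hom z) ((cls (lcComplex D (A.dualTwist χ)) 1).hom w) =
      (cls (lcComplex D (mu χ)) 2).hom (cupCyc D A χ z w) := by
  rw [← Hmk_eq_cls, ← Hmk_eq_cls, ← Hmk_eq_cls]
  exact (lcPairing D (evTwist A χ) (evTwist_equivariant A χ)).H_mk 1 1 2 rfl z.1
    (mem_cyc.mp z.2) w.1 (mem_cyc.mp w.2)

/-- The values of the cup product of two `1`-cocycles:
`(z ∪ w)(g₀, g₁) = (g₀ · w(g₁)) (z(g₀))`. -/
theorem lcVal_cupCyc (D : LevelDatum G) (A : Rep.{0} k G) (χ : G →* kˣ)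
    (z : cyc (lcComplex D A) 1) (w : cyc (lcComplex D (A.dualTwist χ)) 1) (g : Fin 2 → G) :
    lcVal (cupCyc D A χ z w) g =
      ((A.dualTwist χ).ρ (g 0) (ofCyc₁ D (A.dualTwist χ) w (g 1)) : Module.Dual k A)
        (ofCyc₁ D A z (g 0)) := by
  have e1 : (tupleFst (m := 1) (n := 1) g) = fun _ => g 0 := by
    funext i
    rw [Fin.fin_one_eq_zero i]
    rfl
  have e2 : (tupleSnd (m := 1) (n := 1) g) = fun _ => g 1 := by
    funext i
    rw [Fin.fin_one_eq_zero i]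
    rfl
  have e3 : tupleProd (fun _ : Fin 1 => g 0) = g 0 := by
    rw [tupleProd_succ, tupleProd_zero, mul_one]
  show cupR (evTwist A χ) 1 1 2 (lcValC z.1) (lcValC w.1) g = _
  have e4 : cupR (evTwist A χ) 1 1 2 (lcValC z.1) (lcValC w.1) =
      cup (evTwist A χ) 1 1 (lcValC z.1) (lcValC w.1) := cupR_self _ 1 1 _ _
  rw [e4, cup_apply, e1, e2, e3, evTwist_apply]
  rfl

/-! ### The connecting map of the twisted dual sequence -/

/-- A `1`-cocycle takes the value `-g⁻¹ c(g)` at `g⁻¹`. -/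
theorem cocycle_inv {A : Rep.{0} k G} (c : G → A) (hc : c ∈ cocycles₁ A) (g : G) :
    c g⁻¹ = -A.ρ g⁻¹ (c g) := by
  have h1 : c (g⁻¹ * g) = A.ρ g⁻¹ (c g) + c g⁻¹ := (mem_cocycles₁_iff c).1 hc g⁻¹ g
  have h2 : c 1 = 0 := cocycles₁_map_one ⟨c, hc⟩
  rw [inv_mul_cancel, h2] at h1
  exact eq_neg_of_add_eq_zero_right h1.symm

/-- **The connecting map is minus the cup product with `c`**: for the twisted dual sequence
`0 → k(χ) → E_c' → A' → 0` of the extension attached to a level-constant `1`-cocycle `z` of a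
smooth module `A`, `δ v = -(cls z ∪ v)`. -/
theorem hlcDelta_eq_neg_cupTwist (D : LevelDatum G) (χ : G →* kˣ) {A : Rep.{0} k G}
    (z : cyc (lcComplex D A) 1)
    (hsm : D.Smooth ((extRep A (ofCyc₁ D A z) (ofCyc₁_mem_cocycles₁ D A z)).dualTwist χ))
    (hX : ((dualSC A (ofCyc₁ D A z) (ofCyc₁_mem_cocycles₁ D A z) χ).map
      (lcFunctor k D)).ShortExact)
    (v : Hlc D (A.dualTwist χ) 1) :
    hlcDelta hX 1 v = -cupTwist D A χ ((cls (lcComplex D A) 1).hom z) v := by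
  obtain ⟨w, rfl⟩ := cls_surjective (lcComplex D (A.dualTwist χ)) 1 v
  rw [cupTwist_cls]
  refine Eq.trans (b := (cls (lcComplex D (mu χ)) 2).hom (-cupCyc D A χ z w)) ?_ (map_neg _ _)
  -- notation
  obtain ⟨c, hcdef⟩ : ∃ c : G → A, c = ofCyc₁ D A z := ⟨_, rfl⟩
  have hc : c ∈ cocycles₁ A := hcdef ▸ ofCyc₁_mem_cocycles₁ D A z
  subst hcdef
  set c : G → A := ofCyc₁ D A z with hcd
  obtain ⟨wf, hwfdef⟩ : ∃ wf : G → A.dualTwist χ, wf = ofCyc₁ D (A.dualTwist χ) w := ⟨_, rfl⟩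
  have hwf : wf ∈ cocycles₁ (A.dualTwist χ) :=
    hwfdef ▸ ofCyc₁_mem_cocycles₁ D (A.dualTwist χ) w
  -- the lift
  let ψ : A.dualTwist χ → (extRep A c hc).dualTwist χ :=
    fun f => (show Module.Dual k (A × k) from (f : Module.Dual k A) ∘ₗ LinearMap.fst k A k)
  let y : (lcComplex D ((extRep A c hc).dualTwist χ)).X 1 :=
    mkX D ((extRep A c hc).dualTwist χ) 1 (fun g => ψ (lcValC w.1 g))
      (isLC_comp D hsm ψ (isLC_lcValC D (A.dualTwist χ) w.1))
  refine hlcDelta_cls hX 1 w y (fun g => ?_) (-cupCyc D A χ z w) (fun g => ?_)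
  · -- the lift maps to `w`
    refine LinearMap.ext fun (a : A) => ?_
    rfl
  · -- `d (lift) = j (-(c ∪ w))`
    show (dualJ A c hc χ).hom (-lcVal (cupCyc D A χ z w) g) =
      (inhomogeneousCochains.d ((extRep A c hc).dualTwist χ) 1).hom
        (fun g => ψ (lcValC w.1 g)) g
    rw [d_one_apply, lcVal_cupCyc, ← hwfdef]
    have hw1 : lcValC w.1 (fun _ => g 1) = wf (g 1) := by rw [hwfdef]; rfl
    have hw2 : lcValC w.1 (fun _ => g 0 * g 1) = wf (g 0 * g 1) := by rw [hwfdef]; rfl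
    have hw3 : lcValC w.1 (fun _ => g 0) = wf (g 0) := by rw [hwfdef]; rfl
    rw [hw1, hw2, hw3]
    have hcoc : wf (g 0 * g 1) = (A.dualTwist χ).ρ (g 0) (wf (g 1)) + wf (g 0) :=
      (mem_cocycles₁_iff wf).1 hwf (g 0) (g 1)
    have hρ : (A.dualTwist χ).ρ (g 0) (wf (g 1)) =
        (χ (g 0) : k) • ((wf (g 1) : Module.Dual k A) ∘ₗ A.ρ (g 0)⁻¹) :=
      Rep.dualTwist_ρ_apply A χ (g 0) (wf (g 1))
    have hρE : ((extRep A c hc).dualTwist χ).ρ (g 0) (ψ (wf (g 1))) =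
        (χ (g 0) : k) • ((ψ (wf (g 1)) : Module.Dual k (A × k)) ∘ₗ (extRep A c hc).ρ (g 0)⁻¹) :=
      Rep.dualTwist_ρ_apply (extRep A c hc) χ (g 0) (ψ (wf (g 1)))
    rw [hcoc, hρE, hρ]
    refine LinearMap.ext fun (x : A × k) => ?_
    have hci : c (g 0)⁻¹ = -A.ρ (g 0)⁻¹ (c (g 0)) := cocycle_inv c hc (g 0)
    show (-((χ (g 0) : k) * (wf (g 1) : Module.Dual k A) (A.ρ (g 0)⁻¹ (c (g 0))))) * x.2 =
      (χ (g 0) : k) * (wf (g 1) : Module.Dual k A) (A.ρ (g 0)⁻¹ x.1 + x.2 • c (g 0)⁻¹) -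
        ((χ (g 0) : k) * (wf (g 1) : Module.Dual k A) (A.ρ (g 0)⁻¹ x.1) +
          (wf (g 0) : Module.Dual k A) x.1) + (wf (g 0) : Module.Dual k A) x.1
    rw [hci, map_add, map_smul, map_neg, smul_eq_mul]
    ring

/-! ### The leaf -/

/-- The map induced on level-constant cohomology by the zero morphism is zero. -/
theorem hlcMap_zero (D : LevelDatum G) (A B : Rep.{0} k G) (n : ℕ) (x : Hlc D A n) :
    hlcMap D (0 : A ⟶ B) n x = 0 := by
  have h : lcMapCoeff D (0 : A ⟶ B) = 0 := (lcFunctor k D).map_zero A B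
  unfold hlcMap
  rw [h, HomologicalComplex.homologyMap_zero]
  rfl

/-- **Leaf (ISO-ND)**: local duality in bidegree `(1,1)` is left-nondegenerate, formally from the
local injectivity (L) and `inv ≠ 0`. -/
theorem localH1NondegLeaf : LocalH1NondegLeaf := by
  intro G _ k _ D _ χ inv hL hz hμ A hA hfin u hu
  obtain ⟨z₀, hz₀⟩ := hz
  -- a cocycle representing `u`
  obtain ⟨z, rfl⟩ := cls_surjective (lcComplex D A) 1 u
  have hc : ofCyc₁ D A z ∈ cocycles₁ A := ofCyc₁_mem_cocycles₁ D A z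
  have hclc : IsLC D A (toCochain₁ A (ofCyc₁ D A z)) := by
    rw [toCochain₁_ofCyc₁]
    exact isLC_lcValC D A z.1
  have hnc : ¬ ∃ a : A, ∀ g : G, ofCyc₁ D A z g = A.ρ g a - a := fun h =>
    hu ((cls_eq_zero_iff_exists D A (isLC_const D hA) z).2 h)
  -- the twisted dual sequence of the extension
  have hsm : D.Smooth ((extRep A (ofCyc₁ D A z) hc).dualTwist χ) :=
    smooth_dualTwist_extRep D χ hμ hA (ofCyc₁ D A z) hc hclc
  have hX : ((dualSC A (ofCyc₁ D A z) hc χ).map (lcFunctor k D)).ShortExact :=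
    lc_shortExact_of_smooth D (dualSC A (ofCyc₁ D A z) hc χ)
      (dualSC_shortExact A (ofCyc₁ D A z) hc χ) hsm
  -- by (L) the map `H²(k(χ)) → H²(E')` is zero
  have : Module.Finite k (A × k) := Module.Finite.prod
  have hfinE : Module.Finite k ((extRep A (ofCyc₁ D A z) hc).dualTwist χ) :=
    (inferInstance : Module.Finite k (Module.Dual k (A × k)))
  have hx0 : hlcMap D (dualJ A (ofCyc₁ D A z) hc χ) 2 z₀ = 0 := by
    refine hL _ hsm hfinE _ fun f => ?_
    rw [← hlcMap_comp_apply, dualJ_comp_eq_zero A (ofCyc₁ D A z) hc χ hnc f, hlcMap_zero, map_zero]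
  -- hence `z₀` is in the image of the connecting map
  obtain ⟨v, hv⟩ := hlc_exact₁ hX 1 z₀ hx0
  refine ⟨v, fun h0 => hz₀ ?_⟩
  rw [← hv, hlcDelta_eq_neg_cupTwist D χ z hsm hX v, map_neg, h0, neg_zero]

end Fermat.Agent.S55.H21

end
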