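/-
Program C (S55), package C8 / export (B4): leaf-independent field and group plumbing for the
LIFT assembly (`H29.LiftStatement`), helper21.

* (S1) `resToE : Gal(L/K) →* Gal(E/k)` (restriction) is injective when
  `Gal(L/K) ∩ Gal(L/E) = 1` (in the form `fixSubgroup k K L ⊓ fixSubgroup k E L = ⊥`); hence
  `L/K` is cyclic when `E/k` is, `[L : K] ∣ [E : k]`, and `[L : K]` is a power of `p` when
  `[E : k]` is.
* (S2) the fixed field of a Sylow `p`-subgroup of `Gal(K/k)`: an intermediate field `F` with
  `[F : k] = m'` and `[K : F] = p ^ a` when `[K : k] = p ^ a * m'`, `p ∤ m'`.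
-/
import Fermat.Agent.S55.H88.TowerData

set_option autoImplicit false

noncomputable section

namespace Fermat.Agent.S55.H21

open Fermat.Agent.S55.H88

section ResToE

variable (k K E L : Type) [Field k] [Field K] [Field E] [Field L] [Algebra k K] [Algebra k E]
  [Algebra k L] [Algebra K L] [Algebra E L] [IsScalarTower k K L] [IsScalarTower k E L]
  [Normal k E]

/-- Restriction `Gal(L/K) → Gal(E/k)`. -/
def resToE : (L ≃ₐ[K] L) →* (E ≃ₐ[k] E) :=
  (AlgEquiv.restrictNormalHom (F := k) (K₁ := L) E).comp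
    ((fixSubgroup k K L).subtype.comp (galToFix k K L))

theorem algebraMap_resToE (σ : L ≃ₐ[K] L) (e : E) :
    algebraMap E L (resToE k K E L σ e) = σ (algebraMap E L e) :=
  AlgEquiv.restrictNormal_commutes (σ.restrictScalars k) E e

variable {k K E L}

theorem resToE_injective (h : fixSubgroup k K L ⊓ fixSubgroup k E L = ⊥) :
    Function.Injective (resToE k K E L) := by
  rw [injective_iff_map_eq_one]
  intro σ hσ
  have h1 : (σ.restrictScalars k : L ≃ₐ[k] L) ∈ fixSubgroup k K L ⊓ fixSubgroup k E L := by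
    refine ⟨fun x => σ.commutes x, fun e => ?_⟩
    have h2 := algebraMap_resToE k K E L σ e
    rw [hσ] at h2
    exact h2.symm
  rw [h, Subgroup.mem_bot] at h1
  ext x
  exact congrArg (fun τ : L ≃ₐ[k] L => τ x) h1

theorem isCyclic_top_of_inf_eq_bot [IsCyclic (E ≃ₐ[k] E)]
    (h : fixSubgroup k K L ⊓ fixSubgroup k E L = ⊥) : IsCyclic (L ≃ₐ[K] L) :=
  isCyclic_of_injective (resToE k K E L) (resToE_injective h)

theorem finrank_top_dvd [FiniteDimensional k E] [IsGalois k E] [FiniteDimensional K L]
    [IsGalois K L] (h : fixSubgroup k K L ⊓ fixSubgroup k E L = ⊥) :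
    Module.finrank K L ∣ Module.finrank k E := by
  rw [← IsGalois.card_aut_eq_finrank K L, ← IsGalois.card_aut_eq_finrank k E]
  exact Subgroup.card_dvd_of_injective (resToE k K E L) (resToE_injective h)

theorem exists_finrank_top_eq_pow [FiniteDimensional k E] [IsGalois k E] [FiniteDimensional K L]
    [IsGalois K L] {p a : ℕ} (hp : p.Prime) (hE : Module.finrank k E = p ^ a)
    (h : fixSubgroup k K L ⊓ fixSubgroup k E L = ⊥) : ∃ n : ℕ, Module.finrank K L = p ^ n := by
  have h1 := finrank_top_dvd (k := k) (K := K) (E := E) (L := L) h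
  rw [hE] at h1
  obtain ⟨n, -, hn⟩ := (Nat.dvd_prime_pow hp).1 h1
  exact ⟨n, hn⟩

end ResToE

section Sylow

variable (k K : Type) [Field k] [Field K] [Algebra k K] [FiniteDimensional k K] [IsGalois k K]

/-- The fixed field of a Sylow `p`-subgroup of `Gal(K/k)`. -/
theorem exists_sylow_field {p a m' : ℕ} (hp : p.Prime) (hm : ¬ p ∣ m')
    (hK : Module.finrank k K = p ^ a * m') :
    ∃ F : IntermediateField k K, Module.finrank k F = m' ∧ Module.finrank F K = p ^ a := by
  classical
  haveI : Fact p.Prime := ⟨hp⟩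
  obtain ⟨P⟩ : Nonempty (Sylow p (K ≃ₐ[k] K)) := inferInstance
  have hcard : Nat.card (K ≃ₐ[k] K) = p ^ a * m' := by
    rw [IsGalois.card_aut_eq_finrank, hK]
  have hP : Nat.card P = p ^ a := by
    rw [Sylow.card_eq_multiplicity, hcard]
    congr 1
    have hm0 : m' ≠ 0 := fun h0 => hm (h0 ▸ dvd_zero p)
    rw [Nat.factorization_mul (pow_ne_zero a hp.ne_zero) hm0, Finsupp.add_apply,
      Nat.Prime.factorization_pow hp, Finsupp.single_eq_same,
      Nat.factorization_eq_zero_of_not_dvd hm, add_zero]
  refine ⟨IntermediateField.fixedField (P : Subgroup (K ≃ₐ[k] K)), ?_, ?_⟩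
  · have h1 : Module.finrank (IntermediateField.fixedField (P : Subgroup (K ≃ₐ[k] K))) K
        = p ^ a := by
      rw [IntermediateField.finrank_fixedField_eq_card]
      exact hP
    have h2 := Module.finrank_mul_finrank k
      (IntermediateField.fixedField (P : Subgroup (K ≃ₐ[k] K))) K
    rw [h1, hK, mul_comm] at h2
    exact Nat.eq_of_mul_eq_mul_left (pow_pos hp.pos a) h2
  · rw [IntermediateField.finrank_fixedField_eq_card]
    exact hP

end Sylow

end Fermat.Agent.S55.H21
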