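/-
Program C (S55), sub-package LOC of C9b / package C4: CHANGE OF THE ROOT OF UNITY in the
local invariant (helper21; found while refereeing C3/LOC).

`H26.IsLocalInv p q ζ inv` depends on the `p`-th root of unity `ζ ∈ Ω`: if `inv` is the local
invariant relative to `ζ`, then `b • inv` is the local invariant relative to `ζ ^ b`
(`b ∈ 𝔽_pˣ`).  Proof: a unit-valued cocycle `c` which is `(ζ ^ b) ^ z` is `ζ ^ (b • z)`, so a
`Corr`-pair `(x, y)` relative to `ζ ^ b` gives the `Corr`-pair `(b • x, y)` relative to `ζ`.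

Consumer: LOC-2 (`loc_orb`), where the embedding `ι_q ∘ g` maps a global root `ζ₀` to
`ι_q (ζ₀) ^ χ(g)`.
-/
import Fermat.Agent.S55.H26.LocalInvSpec

set_option autoImplicit false

open CategoryTheory

noncomputable section

namespace Fermat.Agent.S55.H21

open Fermat.Agent.S55.H49 Fermat.Agent.S55.H26 Fermat.Agent.S55.H66

/-- Powers of an element killed by `p` only depend on the exponent modulo `p`. -/
theorem pow_eq_pow_of_natCast_eq {M : Type} [Monoid M] {u : M} {p : ℕ} (hu : u ^ p = 1)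
    {m n : ℕ} (h : (m : ZMod p) = (n : ZMod p)) : u ^ m = u ^ n := by
  have h1 : m % p = n % p := (ZMod.natCast_eq_natCast_iff' m n p).1 h
  have key : ∀ k : ℕ, u ^ k = u ^ (k % p) := fun k => by
    conv_lhs => rw [← Nat.mod_add_div k p]
    rw [pow_add, pow_mul, hu, one_pow, mul_one]
  rw [key m, key n, h1]

variable (p : ℕ) [Fact p.Prime] (q : ℕ) [Fact q.Prime]

/-- `zetaPow` for a power of the root: `(ζ ^ b'.val) ^ (b * a) = ζ ^ a` when `b * b' = 1` and
`ζ ^ p = 1`. -/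
theorem zetaPow_pow_val {F : Type} [Field F] [Algebra F (PadicAlgCl q)]
    {L : IntermediateField F (PadicAlgCl q)} (ζ : Lˣ) (hζ : ζ ^ p = 1) (b b' a : ZMod p)
    (hbb' : b * b' = 1) :
    zetaPow (F := F) p (ζ ^ b'.val) (b * a) = zetaPow (F := F) p ζ a := by
  haveI : NeZero p := ⟨(Fact.out : p.Prime).ne_zero⟩
  unfold zetaPow
  congr 2
  rw [← pow_mul]
  refine pow_eq_pow_of_natCast_eq hζ ?_
  rw [Nat.cast_mul, ZMod.natCast_zmod_val, ZMod.natCast_zmod_val, ZMod.natCast_zmod_val,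
    ← mul_assoc, mul_comm b' b, hbb', one_mul]

/-- **(ROOT-CHANGE)** If `inv` is the local invariant relative to the `p`-th root of unity `ζ`,
then `b • inv` is the local invariant relative to `ζ ^ b`, for every `b ∈ 𝔽_pˣ`. -/
theorem isLocalInv_pow (ζ : PadicAlgCl q) (hζ : ζ ^ p = 1)
    (inv : Hlc (Dloc q) (mu (chiLoc p q)) 2 →ₗ[ZMod p] ZMod p) (hinv : IsLocalInv p q ζ inv)
    (b : (ZMod p)ˣ) :
    IsLocalInv p q (ζ ^ (b : ZMod p).val) ((b : ZMod p) • inv) := by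
  haveI : NeZero p := ⟨(Fact.out : p.Prime).ne_zero⟩
  intro L _ _ ζL hζL x y hxy
  obtain ⟨z, c, hz, hc, hzc⟩ := hxy
  have hbb' : (b : ZMod p) * ((b⁻¹ : (ZMod p)ˣ) : ZMod p) = 1 := by
    rw [← Units.val_mul, mul_inv_cancel, Units.val_one]
  -- `ζL ^ p = 1`
  have hζLp : ζL ^ p = 1 := by
    apply Units.ext
    apply Subtype.ext
    show (((ζL ^ p : Lˣ) : L) : PadicAlgCl q) = 1
    rw [Units.val_pow_eq_pow_val, SubmonoidClass.coe_pow, hζL, ← pow_mul, mul_comm, pow_mul, hζ,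
      one_pow]
  -- the root `ζL₀ := ζL ^ b⁻¹` of `L` has value `ζ`
  have hζL₀ : (((ζL ^ ((b⁻¹ : (ZMod p)ˣ) : ZMod p).val : Lˣ) : L) : PadicAlgCl q) = ζ := by
    rw [Units.val_pow_eq_pow_val, SubmonoidClass.coe_pow, hζL, ← pow_mul]
    have h1 : ζ ^ ((b : ZMod p).val * ((b⁻¹ : (ZMod p)ˣ) : ZMod p).val) = ζ ^ 1 := by
      refine pow_eq_pow_of_natCast_eq hζ ?_
      rw [Nat.cast_mul, ZMod.natCast_zmod_val, ZMod.natCast_zmod_val, hbb', Nat.cast_one]
    rw [h1, pow_one]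
  have key : Corr p q L (ζL ^ ((b⁻¹ : (ZMod p)ˣ) : ZMod p).val) ((b : ZMod p) • x) y := by
    refine ⟨(b : ZMod p) • z, c, ?_, hc, fun g => ?_⟩
    · rw [map_smul]
      exact congrArg (fun t => (b : ZMod p) • t) hz
    · rw [hzc g]
      exact (zetaPow_pow_val p q ζL hζLp (b : ZMod p) _ (lcVal z g) hbb').symm
  have h2 := hinv L _ hζL₀ _ _ key
  rw [map_smul] at h2
  exact h2

end Fermat.Agent.S55.H21
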