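/-
Program C (S55), sub-package LOC of C9b: ROOT-CHANGE in the shape consumed by LOC-2 (helper21).

For a global `p`-th root of unity `ζ₀ ∈ ℚ̄` and `g ∈ Gal(ℚ̄/ℚ)`, the embedding `ι_q ∘ g` maps `ζ₀`
to `ι_q (ζ₀) ^ χ(g)`; hence if `inv` is the local invariant relative to `ι_q ζ₀`, then
`χ(g) • inv` is the local invariant relative to `ι_q (g ζ₀)`.
-/
import Fermat.Agent.S55.H21.RootChange
import Fermat.Agent.S55.H51.Zeta

set_option autoImplicit false

open CategoryTheory ExtCitation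

noncomputable section

namespace Fermat.Agent.S55.H21

open Fermat.Agent.S55.H49 Fermat.Agent.S55.H26 Fermat.Agent.S55.H66

variable (p : ℕ) [Fact p.Prime] (q : ℕ) [Fact q.Prime]

/-- `ι_q (g ζ₀) = ι_q (ζ₀) ^ χ(g)` for a `p`-th root of unity `ζ₀` of `ℚ̄`. -/
theorem padicEmbedding_apply_eq_pow (g : GQ) {ζ₀ : AlgebraicClosure ℚ} (hζ₀ : ζ₀ ^ p = 1) :
    padicEmbedding q (g ζ₀) =
      padicEmbedding q ζ₀ ^ ((cycloChar p g : (ZMod p)ˣ) : ZMod p).val := by
  rw [H51.apply_eq_pow_cycloChar p g hζ₀, map_pow]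

/-- **(ROOT-CHANGE, embedding form)** If `inv` is the local invariant relative to `ι_q ζ₀`, then
`χ(g) • inv` is the local invariant relative to `ι_q (g ζ₀)`. -/
theorem isLocalInv_padicEmbedding_apply {ζ₀ : AlgebraicClosure ℚ} (hζ₀ : ζ₀ ^ p = 1)
    (inv : Hlc (Dloc q) (mu (chiLoc p q)) 2 →ₗ[ZMod p] ZMod p)
    (hinv : IsLocalInv p q (padicEmbedding q ζ₀) inv) (g : GQ) :
    IsLocalInv p q (padicEmbedding q (g ζ₀))
      (((cycloChar p g : (ZMod p)ˣ) : ZMod p) • inv) := by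
  rw [padicEmbedding_apply_eq_pow p q g hζ₀]
  exact isLocalInv_pow p q _ (by rw [← map_pow, hζ₀, map_one]) inv hinv (cycloChar p g)

end Fermat.Agent.S55.H21
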